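/-
MW strand HB, leaf HUR-S (S2): the dual of the Apéry basis with respect to the trace form.

`R` a domain, free over `K[X]` with an Apéry basis `b` (`TraceDisc.IsApery b ord ν`),
`G = (Tr (b i * b j))` the trace matrix, `D = det G` the discriminant.  The family
`dual b j := ∑ i, (adjugate G) i j • b i` satisfies `Tr (b k * dual b j) = D · δ_kj`, hence

* `trace_mul_dual`   : `Tr (f * dual b j) = (b.repr f j) * D` (so `D ∣ Tr (f * dual b j)`);
* `dual_ne_zero`, `dual_indep` : the `dual b j` are nonzero and `K[X]`-independent (`D ≠ 0`);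
* `ord_dual`         : `ord (dual b j) = ν j - n0 * deg D` (characteristic zero): with
  `m = -ord (dual b j)` and `i` the index with `n0 ∣ ν i + m`, the trace of `b i * dual b j`
  has degree exactly `(ν i + m) / n0`, so it is not zero, so `i = j` and the degree is `deg D`.

`exists_dual` is the instance for `regOff v₀` over `K[x]` on the Apéry basis of
`R.exists_apery_basis` (through `H.AperyAlg`): the literal (S2) of the HUR-S cut.
-/
import Mathlib
import Fermat.Agent.S17.H.Glob.AperyAlg

set_option autoImplicit false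
set_option linter.unusedSectionVars false
set_option linter.style.haveILetI false

namespace Fermat.Agent.S17.HB.HurS.Dual

open Polynomial

section Core

open Fermat.Agent.S17.H.TraceDisc

variable {K R : Type*} [Field K] [CommRing R] [IsDomain R] [Algebra K[X] R] {n0 : ℕ}

/-- The dual family of a basis with respect to the trace form, scaled by the discriminant. -/
noncomputable def dual (b : Module.Basis (Fin n0) K[X] R) (j : Fin n0) : R :=
  ∑ i, (Algebra.traceMatrix K[X] b).adjugate i j • b i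

theorem trace_basis_mul_dual (b : Module.Basis (Fin n0) K[X] R) (k j : Fin n0) :
    Algebra.trace K[X] R (b k * dual b j) = if k = j then Algebra.discr K[X] b else 0 := by
  classical
  have h1 : ∀ i, Algebra.trace K[X] R (b k * ((Algebra.traceMatrix K[X] b).adjugate i j • b i)) =
      Algebra.traceMatrix K[X] b k i * (Algebra.traceMatrix K[X] b).adjugate i j := by
    intro i
    rw [mul_smul_comm, map_smul, smul_eq_mul, mul_comm, Algebra.traceMatrix_apply,
      Algebra.traceForm_apply]
  unfold dual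
  rw [Finset.mul_sum, map_sum, Finset.sum_congr rfl fun i _ => h1 i, ← Matrix.mul_apply,
    Matrix.mul_adjugate, Matrix.smul_apply, Matrix.one_apply, Algebra.discr_def, smul_eq_mul]
  split_ifs <;> simp

theorem trace_mul_dual (b : Module.Basis (Fin n0) K[X] R) (f : R) (j : Fin n0) :
    Algebra.trace K[X] R (f * dual b j) = b.repr f j * Algebra.discr K[X] b := by
  classical
  have h1 : ∀ k, Algebra.trace K[X] R (b.repr f k • b k * dual b j) =
      if k = j then b.repr f j * Algebra.discr K[X] b else 0 := by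
    intro k
    rw [smul_mul_assoc, map_smul, smul_eq_mul, trace_basis_mul_dual]
    split_ifs with h
    · rw [h]
    · rw [mul_zero]
  conv_lhs => rw [← b.sum_repr f]
  rw [Finset.sum_mul, map_sum, Finset.sum_congr rfl fun k _ => h1 k, Finset.sum_ite_eq']
  simp

theorem dual_ne_zero (b : Module.Basis (Fin n0) K[X] R) (hD : Algebra.discr K[X] b ≠ 0)
    (j : Fin n0) : dual b j ≠ 0 := by
  intro h0
  have h1 := trace_basis_mul_dual b j j
  rw [h0, mul_zero, map_zero, if_pos rfl] at h1
  exact hD h1.symm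

theorem dual_indep (b : Module.Basis (Fin n0) K[X] R) (hD : Algebra.discr K[X] b ≠ 0)
    (c : Fin n0 → K[X]) (hc : ∑ j, c j • dual b j = 0) : c = 0 := by
  classical
  funext k
  have h1 : ∀ j, Algebra.trace K[X] R (b k * (c j • dual b j)) =
      if j = k then c k * Algebra.discr K[X] b else 0 := by
    intro j
    rw [mul_smul_comm, map_smul, smul_eq_mul, trace_basis_mul_dual]
    split_ifs with h1 h2 h2
    · rw [h2]
    · exact absurd h1.symm h2
    · exact absurd h2.symm h1
    · rw [mul_zero]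
  have h2 := congrArg (fun t => Algebra.trace K[X] R (b k * t)) hc
  simp only [mul_zero, map_zero] at h2
  rw [Finset.mul_sum, map_sum, Finset.sum_congr rfl fun j _ => h1 j, Finset.sum_ite_eq'] at h2
  simp only [Finset.mem_univ, if_true] at h2
  rcases mul_eq_zero.mp h2 with h | h
  · exact h
  · exact absurd h hD

/-- The pole order of the dual family: `ord (dual b j) = ν j - n0 * deg D`. -/
theorem ord_dual [NeZero n0] [CharZero K] {b : Module.Basis (Fin n0) K[X] R} {ord : R → ℤ}
    {ν : Fin n0 → ℕ} (h : IsApery b ord ν) (j : Fin n0) :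
    ord (dual b j) = (ν j : ℤ) - ((n0 * (Algebra.discr K[X] b).natDegree : ℕ) : ℤ) := by
  classical
  have hn0 : 0 < n0 := Nat.pos_of_ne_zero (NeZero.ne n0)
  have hD : Algebra.discr K[X] b ≠ 0 := h.natDegree_discr.1
  have hg : dual b j ≠ 0 := dual_ne_zero b hD j
  obtain ⟨m, hm⟩ := Int.eq_ofNat_of_zero_le (neg_nonneg.mpr (h.ord_nonpos hg))
  -- the index `i` with `n0 ∣ ν i + m`
  have ht : (n0 - m % n0) % n0 < n0 := Nat.mod_lt _ hn0
  obtain ⟨i, hi⟩ : ∃ i : Fin n0, (i : ℕ) = (n0 - m % n0) % n0 := ⟨⟨_, ht⟩, rfl⟩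
  have hdvd : n0 ∣ ν i + m := by
    rw [Nat.dvd_iff_mod_eq_zero, Nat.add_mod, h.res i, hi, Nat.mod_add_mod,
      Nat.sub_add_cancel (Nat.mod_lt m hn0).le, Nat.mod_self]
  obtain ⟨M, hM⟩ := hdvd
  have hne : b i * dual b j ≠ 0 := mul_ne_zero (b.ne_zero i) hg
  have hord : ord (b i * dual b j) = -((n0 * M : ℕ) : ℤ) := by
    rw [h.mul _ _ (b.ne_zero i) hg, h.ord_basis, ← hM]
    push_cast
    linarith
  obtain ⟨hc, hd⟩ := h.trace_of_dvd hne hord
  rw [trace_basis_mul_dual] at hc hd
  by_cases hij : i = j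
  · rw [if_pos hij] at hd
    subst hij
    have h3 : (ν i : ℤ) + m = ((n0 * M : ℕ) : ℤ) := by exact_mod_cast hM
    rw [hd]
    linarith
  · rw [if_neg hij] at hc
    simp at hc

end Core

open AlgebraicCurve Fermat.Agent.S17.R Fermat.Agent.S17.H.AperyAlg

variable {K F : Type*} [Field K] [Field F] [Algebra K F] [IsAlgClosed K] [CharZero K]
  [Algebra.EssFiniteType K F]

/-- **HUR-S (S2)**: the dual Apéry family of `regOff v₀` over `K[x]`: nonzero functions `g j`
regular off `v₀` with `ord_{v₀} (g j) = ν j - n0 * deg D`, such that `D` divides every trace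
`Tr (f * g j)`, and which are independent over `K[x]`. -/
theorem exists_dual (htr : Algebra.trdeg K F = 1) (v₀ : Place K F) {x : F} (hx : x ∈ regOff v₀)
    {n0 : ℕ} (hn0 : 0 < n0) (hord : v₀.ord x = -(n0 : ℤ)) :
    letI := xAlg hx
    ∃ (ν : Fin n0 → ℕ) (g : Fin n0 → ↥(regOff v₀)) (D : K[X]), D ≠ 0 ∧
      (∀ i, ν i % n0 = (i : ℕ)) ∧
      (gR K F : ℤ) = ∑ i, ((ν i / n0 : ℕ) : ℤ) ∧
      (∀ j, (g j : F) ≠ 0 ∧
        v₀.ord (g j : F) = (ν j : ℤ) - ((n0 * D.natDegree : ℕ) : ℤ)) ∧
      (∀ (j : Fin n0) (f : ↥(regOff v₀)), D ∣ Algebra.trace K[X] ↥(regOff v₀) (f * g j)) ∧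
      (∀ c : Fin n0 → K[X], ∑ j, Polynomial.aeval x (c j) * (g j : F) = 0 → c = 0) := by
  classical
  letI := xAlg hx
  haveI : NeZero n0 := ⟨hn0.ne'⟩
  obtain ⟨ν, w, h1, huniq, -, hg⟩ := exists_apery_basis htr v₀ hx hn0 hord
  have hw : ∀ i, w i ∈ regOff v₀ := fun i => (h1 i).1
  have hwo : ∀ i, v₀.ord (w i) = -(ν i : ℤ) := fun i => (h1 i).2.1
  have hwm : ∀ i, ν i % n0 = (i : ℕ) := fun i => (h1 i).2.2
  have hA := isApery hx hn0 hord ν w hw huniq hwo hwm
  have hD : Algebra.discr K[X] (basisOf hx w hw huniq) ≠ 0 := hA.natDegree_discr.1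
  refine ⟨ν, fun j => dual (basisOf hx w hw huniq) j, Algebra.discr K[X] (basisOf hx w hw huniq),
    hD, hwm, hg, ?_, ?_, ?_⟩
  · intro j
    have hne : dual (basisOf hx w hw huniq) j ≠ 0 := dual_ne_zero _ hD j
    exact ⟨fun h => hne (Subtype.ext h), ord_dual hA j⟩
  · intro j f
    rw [trace_mul_dual]
    exact Dvd.intro_left _ rfl
  · intro c hc
    apply dual_indep (basisOf hx w hw huniq) hD
    apply Subtype.ext
    rw [coe_sum_smul hx]
    exact hc

end Fermat.Agent.S17.HB.HurS.Dual
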