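import Mathlib

/-!
# Program MW (statement S17), strand HB, leaf HUR-S (T0): a trace that cannot vanish

A square matrix `Y` over an algebraically closed field of characteristic zero with
`(Y * (Y - c)) ^ N = 0`, `c ≠ 0`, which is not nilpotent, has a non-zero trace: its eigenvalues
lie in `{0, c}` and `c` occurs at least once.
-/

set_option autoImplicit false

namespace Fermat.Agent.S17.HB.HurS.MatTrace

open Polynomial

/-- The sum of a multiset all of whose members are `0` or `c` is `count c • c`. -/
theorem sum_eq_count_smul {K : Type*} [Field K] [DecidableEq K] (s : Multiset K) (c : K)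
    (h : ∀ μ ∈ s, μ = 0 ∨ μ = c) : s.sum = (s.count c : K) * c := by
  induction s using Multiset.induction_on with
  | empty => simp
  | cons a s ih =>
    have hs : ∀ μ ∈ s, μ = 0 ∨ μ = c := fun μ hμ => h μ (Multiset.mem_cons_of_mem hμ)
    rw [Multiset.sum_cons, ih hs, Multiset.count_cons]
    rcases h a (Multiset.mem_cons_self a s) with ha | ha
    · subst ha
      by_cases hc : c = 0
      · subst hc
        simp
      · rw [if_neg hc]
        simp
    · subst ha
      rw [if_pos rfl]
      push_cast
      ring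

/-- **T0**: a non-nilpotent matrix killed by a power of `T (T - c)`, `c ≠ 0`, has non-zero
trace (algebraically closed field of characteristic zero). -/
theorem trace_ne_zero_of_nilpotent {K : Type*} [Field K] [IsAlgClosed K] [CharZero K] {n : ℕ}
    (Y : Matrix (Fin n) (Fin n) K) (c : K) (hc : c ≠ 0) (N : ℕ)
    (hnil : (Y * (Y - c • (1 : Matrix (Fin n) (Fin n) K))) ^ N = 0) (hY : ∀ k : ℕ, Y ^ k ≠ 0) :
    Y.trace ≠ 0 := by
  classical
  have hnt : Nontrivial (Matrix (Fin n) (Fin n) K) := by
    refine ⟨⟨Y ^ 0, 0, hY 0⟩⟩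
  have hroots : ∀ μ ∈ Y.charpoly.roots, μ = 0 ∨ μ = c := by
    intro μ hμ
    have hroot : Y.charpoly.IsRoot μ :=
      (Polynomial.mem_roots (Matrix.charpoly_monic Y).ne_zero).mp hμ
    have hspec : μ ∈ spectrum K Y := Matrix.mem_spectrum_iff_isRoot_charpoly.mpr hroot
    have hP : Polynomial.aeval Y ((X * (X - C c)) ^ N : K[X]) = 0 := by
      rw [map_pow, map_mul, map_sub, Polynomial.aeval_X, Polynomial.aeval_C,
        Algebra.algebraMap_eq_smul_one]
      exact hnil
    have h1 := spectrum.subset_polynomial_aeval Y ((X * (X - C c)) ^ N : K[X]) ⟨μ, hspec, rfl⟩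
    rw [hP, spectrum.zero_eq] at h1
    have h2 : ((X * (X - C c)) ^ N : K[X]).eval μ = 0 := h1
    rw [Polynomial.eval_pow, Polynomial.eval_mul, Polynomial.eval_X, Polynomial.eval_sub,
      Polynomial.eval_X, Polynomial.eval_C] at h2
    rcases mul_eq_zero.mp (pow_eq_zero_iff (M₀ := K) (n := N) (by
      intro hN0
      rw [hN0, pow_zero] at hnil
      exact one_ne_zero hnil) |>.mp h2) with h3 | h3
    · exact Or.inl h3
    · exact Or.inr (sub_eq_zero.mp h3)
  rw [Matrix.trace_eq_sum_roots_charpoly, sum_eq_count_smul _ c hroots]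
  refine mul_ne_zero ?_ hc
  rw [Nat.cast_ne_zero]
  intro hcount
  -- all the roots are zero: the characteristic polynomial is `X ^ n`
  have hall : ∀ μ ∈ Y.charpoly.roots, μ = 0 := by
    intro μ hμ
    rcases hroots μ hμ with h | h
    · exact h
    · exfalso
      rw [h] at hμ
      exact (Multiset.count_pos.mpr hμ).ne' hcount
  have hsplit : Y.charpoly.Splits := IsAlgClosed.splits _
  have hprod := hsplit.eq_prod_roots_of_monic (Matrix.charpoly_monic Y)
  have hrep : Y.charpoly.roots = Multiset.replicate (Multiset.card Y.charpoly.roots) 0 :=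
    Multiset.eq_replicate.mpr ⟨rfl, hall⟩
  have hpow : Y.charpoly = X ^ (Multiset.card Y.charpoly.roots) := by
    conv_lhs => rw [hprod, hrep]
    simp
  have hCH := Matrix.aeval_self_charpoly Y
  rw [hpow, map_pow, Polynomial.aeval_X] at hCH
  exact hY _ hCH

end Fermat.Agent.S17.HB.HurS.MatTrace
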